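/-
S59 PRE-WORK / E7 core, file 1 (helper64): the ABSTRACT `p`-adic Tate module.  Mathlib only.

For ANY abelian group `E` (application: `E = W(ℚ̄)`) and a prime `p`:

* `lvl E p n : AddSubgroup E`        — the `p^n`-torsion `E[p^n]`, a `ℤ_[p]`-module through
                                       `PadicInt.toZModPow n` (`smul_lvl_eq : a • x = a.appr n • x`);
* `Tp E p : Submodule ℤ_[p] (Π n, lvl E p n)` — compatible systems `p • x (n+1) = x n`;
* `proj E p n : Tp E p →ₗ[ℤ_[p]] lvl E p n`, `ker_proj : ker (proj n) = 𝔪^n • ⊤` (NO hypothesis);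
* `proj_surjective` from `PDiv E p` (`p`-divisibility of the `p`-primary torsion);
* `Tp` is torsion-free (`smul_eq_zero_imp`), separated (`eq_zero_of_forall_proj`);
* functoriality `tpMap : AddMonoid.End E →* Module.End ℤ_[p] (Tp E p)`, `tpMap_apply`;
  relation transfer (`tpMap_eq_one`, `tpMap_quadratic`, `tpMap_unipotent`), adic continuity
  (`tpMap_sub_mem`).
-/
import Mathlib

set_option autoImplicit false

noncomputable section

namespace Fermat.Agent.GE7.TateAbs

open PadicInt IsLocalRing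

variable (E : Type*) [AddCommGroup E] (p : ℕ)

/-- the `p^n`-torsion subgroup `E[p^n]`. -/
def lvl (n : ℕ) : AddSubgroup E := (nsmulAddMonoidHom (p ^ n) : E →+ E).ker

variable {E p}

theorem mem_lvl {n : ℕ} {x : E} : x ∈ lvl E p n ↔ p ^ n • x = 0 := Iff.rfl

theorem pow_nsmul_lvl {n : ℕ} (x : lvl E p n) : p ^ n • x = 0 :=
  Subtype.ext (by rw [AddSubgroup.coe_nsmul]; exact mem_lvl.mp x.2)

theorem lvl_mono {m n : ℕ} (h : m ≤ n) : lvl E p m ≤ lvl E p n := by
  intro x hx
  rw [mem_lvl] at hx ⊢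
  obtain ⟨k, rfl⟩ := Nat.exists_eq_add_of_le h
  rw [pow_add, mul_nsmul, hx, nsmul_zero]

theorem nsmul_mem_lvl {n : ℕ} {x : E} (hx : x ∈ lvl E p (n + 1)) : p • x ∈ lvl E p n := by
  rw [mem_lvl] at hx ⊢
  rw [← mul_nsmul, ← pow_succ']
  exact hx

instance instModuleZMod (n : ℕ) : Module (ZMod (p ^ n)) (lvl E p n) :=
  AddCommGroup.zmodModule pow_nsmul_lvl

variable [hp : Fact p.Prime]

instance instModulePadic (n : ℕ) : Module ℤ_[p] (lvl E p n) :=
  Module.compHom _ (toZModPow n)

theorem smul_lvl_def {n : ℕ} (a : ℤ_[p]) (x : lvl E p n) : a • x = toZModPow n a • x := rfl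

/-- the `ℤ_[p]`-action on `E[p^n]` is through `a.appr n`. -/
theorem smul_lvl_eq {n : ℕ} (a : ℤ_[p]) (x : lvl E p n) : a • x = a.appr n • x := by
  have h : toZModPow n a = ((a.appr n : ℕ) : ZMod (p ^ n)) := rfl
  rw [smul_lvl_def, h, Nat.cast_smul_eq_nsmul]

/-- ... and through `a.appr m` for every `m ≥ n`. -/
theorem smul_lvl_eq_of_le {n m : ℕ} (h : n ≤ m) (a : ℤ_[p]) (x : lvl E p n) :
    a • x = a.appr m • x := by
  rw [smul_lvl_eq]
  obtain ⟨c, hc⟩ := dvd_appr_sub_appr a n m h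
  have hle := appr_mono a h
  have h1 : a.appr m = a.appr n + p ^ n * c := by omega
  rw [h1, add_nsmul, mul_nsmul, pow_nsmul_lvl, nsmul_zero, add_zero]

/-- natural numbers act as natural numbers. -/
theorem natCast_smul_lvl {n : ℕ} (k : ℕ) (x : lvl E p n) : (k : ℤ_[p]) • x = k • x :=
  Nat.cast_smul_eq_nsmul _ k x

/-- an additive map commuting with nothing but addition is `ℤ_[p]`-linear between levels. -/
theorem map_smul_lvl {F : Type*} [AddCommGroup F] {n m : ℕ} (f : lvl E p n →+ lvl F p m)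
    (hmn : m ≤ n) (a : ℤ_[p]) (x : lvl E p n) : f (a • x) = a • f x := by
  rw [smul_lvl_eq, smul_lvl_eq_of_le hmn, map_nsmul]

variable (E p)

/-- **the `p`-adic Tate module** `T_p(E) = lim E[p^n]`. -/
def Tp : Submodule ℤ_[p] (∀ n, lvl E p n) where
  carrier := {x | ∀ n, p • (x (n + 1) : E) = (x n : E)}
  add_mem' := by
    intro x y hx hy n
    simp only [Pi.add_apply, AddSubgroup.coe_add, smul_add, hx n, hy n]
  zero_mem' := by
    intro n
    simp
  smul_mem' := by
    intro a x hx n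
    simp only [Pi.smul_apply]
    rw [smul_lvl_eq a (x (n + 1)), smul_lvl_eq_of_le (Nat.le_succ n) a (x n),
      AddSubgroup.coe_nsmul, AddSubgroup.coe_nsmul, smul_comm, hx n]

variable {E p}

/-- the `n`-th component, as an element of `E`. -/
def val (x : Tp E p) (n : ℕ) : E := (x.1 n : E)

theorem val_mem (x : Tp E p) (n : ℕ) : val x n ∈ lvl E p n := (x.1 n).2

theorem val_succ (x : Tp E p) (n : ℕ) : p • val x (n + 1) = val x n := x.2 n

theorem pow_nsmul_val (x : Tp E p) (n : ℕ) : p ^ n • val x n = 0 := mem_lvl.mp (val_mem x n)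

theorem pow_nsmul_val_add (x : Tp E p) (n k : ℕ) : p ^ k • val x (n + k) = val x n := by
  induction k with
  | zero => rw [pow_zero, one_nsmul, add_zero]
  | succ k ih => rw [pow_succ, mul_nsmul', ← add_assoc, val_succ, ih]

@[simp] theorem val_zero' (n : ℕ) : val (0 : Tp E p) n = 0 := rfl

@[simp] theorem val_add (x y : Tp E p) (n : ℕ) : val (x + y) n = val x n + val y n := rfl

@[simp] theorem val_neg (x : Tp E p) (n : ℕ) : val (-x) n = -val x n := rfl

@[simp] theorem val_sub (x y : Tp E p) (n : ℕ) : val (x - y) n = val x n - val y n := rfl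

theorem val_smul (a : ℤ_[p]) (x : Tp E p) (n : ℕ) : val (a • x) n = a.appr n • val x n := by
  show ((a • x.1 n : lvl E p n) : E) = _
  rw [smul_lvl_eq, AddSubgroup.coe_nsmul]
  rfl

theorem val_smul_of_le (a : ℤ_[p]) (x : Tp E p) {n m : ℕ} (h : n ≤ m) :
    val (a • x) n = a.appr m • val x n := by
  show ((a • x.1 n : lvl E p n) : E) = _
  rw [smul_lvl_eq_of_le h, AddSubgroup.coe_nsmul]
  rfl

theorem val_natCast_smul (k : ℕ) (x : Tp E p) (n : ℕ) : val ((k : ℤ_[p]) • x) n = k • val x n := by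
  show (((k : ℤ_[p]) • x.1 n : lvl E p n) : E) = _
  rw [natCast_smul_lvl, AddSubgroup.coe_nsmul]
  rfl

/-- the `n`-th component as an additive map. -/
def valHom (n : ℕ) : Tp E p →+ E where
  toFun x := val x n
  map_zero' := rfl
  map_add' _ _ := rfl

@[simp] theorem valHom_apply (n : ℕ) (x : Tp E p) : valHom n x = val x n := rfl

theorem val_intCast_smul (k : ℤ) (x : Tp E p) (n : ℕ) : val ((k : ℤ_[p]) • x) n = k • val x n := by
  rw [Int.cast_smul_eq_zsmul ℤ_[p] k x, ← valHom_apply, map_zsmul, valHom_apply]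

theorem ext_val {x y : Tp E p} (h : ∀ n, val x n = val y n) : x = y :=
  Subtype.ext (funext fun n => Subtype.ext (h n))

/-- build an element of `T_p` from a compatible sequence in `E`. -/
def mk (s : ℕ → E) (h0 : ∀ n, p ^ n • s n = 0) (h1 : ∀ n, p • s (n + 1) = s n) : Tp E p :=
  ⟨fun n => ⟨s n, mem_lvl.mpr (h0 n)⟩, fun n => h1 n⟩

@[simp] theorem val_mk (s : ℕ → E) (h0 h1) (n : ℕ) : val (mk (p := p) s h0 h1) n = s n := rfl

variable (E p)

/-- the projection `T_p(E) → E[p^n]`. -/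
def proj (n : ℕ) : Tp E p →ₗ[ℤ_[p]] lvl E p n :=
  (LinearMap.proj n).comp (Tp E p).subtype

variable {E p}

@[simp] theorem coe_proj (n : ℕ) (x : Tp E p) : ((proj E p n x : lvl E p n) : E) = val x n := rfl

theorem proj_eq_zero_iff (n : ℕ) (x : Tp E p) : proj E p n x = 0 ↔ val x n = 0 := by
  rw [← coe_proj]
  exact ⟨fun h => by rw [h]; rfl, fun h => Subtype.ext h⟩

/-- `T_p` is separated: an element all of whose components vanish is zero. -/
theorem eq_zero_of_forall_val {x : Tp E p} (h : ∀ n, val x n = 0) : x = 0 :=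
  ext_val (fun n => by rw [h n]; rfl)

/-- `T_p` has no `p`-torsion. -/
theorem eq_zero_of_p_smul {x : Tp E p} (h : (p : ℤ_[p]) • x = 0) : x = 0 := by
  apply eq_zero_of_forall_val
  intro n
  have h1 : val ((p : ℤ_[p]) • x) (n + 1) = 0 := by rw [h]; rfl
  rw [val_natCast_smul, val_succ] at h1
  exact h1

theorem eq_zero_of_pow_smul {x : Tp E p} (k : ℕ) (h : (p : ℤ_[p]) ^ k • x = 0) : x = 0 := by
  induction k with
  | zero => simpa using h
  | succ k ih =>
    apply ih
    apply eq_zero_of_p_smul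
    rw [smul_smul, ← pow_succ']
    exact h

/-- shift: if `x_n = 0` then `x = p^n • y` with `y_m = x_(n+m)`. -/
theorem exists_pow_smul_eq {x : Tp E p} {n : ℕ} (h : val x n = 0) :
    ∃ y : Tp E p, (p : ℤ_[p]) ^ n • y = x := by
  refine ⟨mk (fun m => val x (n + m)) ?_ ?_, ?_⟩
  · intro m
    rw [pow_nsmul_val_add, h]
  · intro m
    rw [← add_assoc, val_succ]
  · apply ext_val
    intro m
    rw [← Nat.cast_pow, val_natCast_smul, val_mk, add_comm, pow_nsmul_val_add]

/-- **`ker (T_p → E[p^n]) = p^n T_p`**. -/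
theorem proj_eq_zero_iff_exists (n : ℕ) (x : Tp E p) :
    proj E p n x = 0 ↔ ∃ y : Tp E p, (p : ℤ_[p]) ^ n • y = x := by
  rw [proj_eq_zero_iff]
  constructor
  · exact exists_pow_smul_eq
  · rintro ⟨y, rfl⟩
    rw [← Nat.cast_pow, val_natCast_smul, pow_nsmul_val]

theorem ker_proj (n : ℕ) :
    LinearMap.ker (proj E p n) = (maximalIdeal ℤ_[p] ^ n) • (⊤ : Submodule ℤ_[p] (Tp E p)) := by
  rw [maximalIdeal_eq_span_p, Ideal.span_singleton_pow, Submodule.ideal_span_singleton_smul]
  ext x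
  rw [LinearMap.mem_ker, proj_eq_zero_iff_exists, Submodule.mem_smul_pointwise_iff_exists]
  constructor
  · rintro ⟨y, rfl⟩
    exact ⟨y, Submodule.mem_top, rfl⟩
  · rintro ⟨y, -, rfl⟩
    exact ⟨y, rfl⟩

theorem mem_pow_smul_top_iff (n : ℕ) (x : Tp E p) :
    x ∈ (maximalIdeal ℤ_[p] ^ n) • (⊤ : Submodule ℤ_[p] (Tp E p)) ↔ val x n = 0 := by
  rw [← ker_proj, LinearMap.mem_ker, proj_eq_zero_iff]

/-! ### Surjectivity of the projections -/

variable (E p)

/-- `p`-divisibility of the `p`-primary torsion of `E`. -/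
def PDiv : Prop := ∀ z : E, (∃ k, p ^ k • z = 0) → ∃ w : E, p • w = z

variable {E p}

omit hp in
/-- the choice of a `p`-th "root". -/
theorem PDiv.exists_next (h : PDiv E p) (z : E) : ∃ w : E, (∃ k, p ^ k • z = 0) → p • w = z := by
  by_cases hz : ∃ k, p ^ k • z = 0
  · obtain ⟨w, hw⟩ := h z hz
    exact ⟨w, fun _ => hw⟩
  · exact ⟨0, fun h' => absurd h' hz⟩

/-- a `p`-divisible tower above `y`. -/
def tower (h : PDiv E p) (y : E) : ℕ → E
  | 0 => y
  | k + 1 => (h.exists_next (tower h y k)).choose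

omit hp in
theorem tower_spec (h : PDiv E p) {y : E} {n : ℕ} (hy : p ^ n • y = 0) (k : ℕ) :
    p ^ (n + k) • tower h y k = 0 ∧ p • tower h y (k + 1) = tower h y k := by
  induction k with
  | zero =>
    refine ⟨by simpa [tower] using hy, ?_⟩
    exact (h.exists_next (tower h y 0)).choose_spec ⟨n, by simpa [tower] using hy⟩
  | succ k ih =>
    have h1 : p ^ (n + (k + 1)) • tower h y (k + 1) = 0 := by
      rw [← add_assoc, pow_succ, mul_nsmul', ih.2, ih.1]
    exact ⟨h1, (h.exists_next (tower h y (k + 1))).choose_spec ⟨_, h1⟩⟩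

omit hp in
theorem pow_nsmul_tower (h : PDiv E p) {y : E} {n : ℕ} (hy : p ^ n • y = 0) (k : ℕ) :
    p ^ k • tower h y k = y := by
  induction k with
  | zero => simp [tower]
  | succ k ih => rw [pow_succ, mul_nsmul', (tower_spec h hy k).2, ih]

/-- **the projections `T_p(E) → E[p^n]` are surjective** when the `p`-primary torsion is
`p`-divisible. -/
theorem proj_surjective (h : PDiv E p) (n : ℕ) : Function.Surjective (proj E p n) := by
  rintro ⟨y, hy⟩
  rw [mem_lvl] at hy
  refine ⟨mk (fun m => p ^ n • tower h y m) ?_ ?_, ?_⟩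
  · intro m
    rw [← mul_nsmul, ← pow_add]
    exact (tower_spec h hy m).1
  · intro m
    rw [smul_comm, (tower_spec h hy m).2]
  · apply Subtype.ext
    rw [coe_proj, val_mk, pow_nsmul_tower h hy]

/-! ### Functoriality -/

omit hp in
/-- an additive endomorphism of `E` preserves the levels. -/
theorem map_mem_lvl (f : E →+ E) {n : ℕ} {x : E} (hx : x ∈ lvl E p n) : f x ∈ lvl E p n := by
  rw [mem_lvl] at hx ⊢
  rw [← map_nsmul, hx, map_zero]

/-- `T_p(f)` on elements. -/
def tpFun (f : E →+ E) (x : Tp E p) : Tp E p :=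
  mk (fun n => f (val x n))
    (fun n => by rw [← map_nsmul, pow_nsmul_val, map_zero])
    (fun n => by rw [← map_nsmul, val_succ])

@[simp] theorem val_tpFun (f : E →+ E) (x : Tp E p) (n : ℕ) : val (tpFun f x) n = f (val x n) := rfl

/-- `T_p(f)` as a `ℤ_[p]`-linear endomorphism. -/
def tpLin (f : E →+ E) : Tp E p →ₗ[ℤ_[p]] Tp E p where
  toFun := tpFun f
  map_add' x y := ext_val fun n => by simp
  map_smul' a x := ext_val fun n => by
    rw [RingHom.id_apply, val_tpFun, val_smul, val_smul, val_tpFun, map_nsmul]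

@[simp] theorem val_tpLin (f : E →+ E) (x : Tp E p) (n : ℕ) : val (tpLin f x) n = f (val x n) := rfl

/-- **functoriality**: `End(E) →* End_{ℤ_p}(T_p E)`. -/
def tpMap : AddMonoid.End E →* Module.End ℤ_[p] (Tp E p) where
  toFun f := tpLin f
  map_one' := LinearMap.ext fun _ => ext_val fun _ => rfl
  map_mul' _ _ := LinearMap.ext fun _ => ext_val fun _ => rfl

@[simp] theorem val_tpMap (f : AddMonoid.End E) (x : Tp E p) (n : ℕ) :
    val (tpMap f x) n = f (val x n) := rfl

/-- `T_p` is additive in `f`. -/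
theorem tpMap_add (f g : AddMonoid.End E) :
    (tpMap (f + g) : Module.End ℤ_[p] (Tp E p)) = tpMap f + tpMap g :=
  LinearMap.ext fun _ => ext_val fun _ => rfl

theorem tpMap_sub (f g : AddMonoid.End E) :
    (tpMap (f - g) : Module.End ℤ_[p] (Tp E p)) = tpMap f - tpMap g :=
  LinearMap.ext fun _ => ext_val fun _ => rfl

theorem tpMap_zero : (tpMap (0 : AddMonoid.End E) : Module.End ℤ_[p] (Tp E p)) = 0 :=
  LinearMap.ext fun _ => ext_val fun _ => rfl

theorem tpMap_natCast (k : ℕ) :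
    (tpMap ((k : AddMonoid.End E)) : Module.End ℤ_[p] (Tp E p)) = (k : Module.End ℤ_[p] (Tp E p)) := by
  refine LinearMap.ext fun x => ext_val fun n => ?_
  rw [val_tpMap]
  have h1 : ((k : Module.End ℤ_[p] (Tp E p)) x) = (k : ℤ_[p]) • x := by
    rw [Module.End.natCast_apply, Nat.cast_smul_eq_nsmul]
  rw [h1, val_natCast_smul]
  simp

/-- if `f` kills every level then `T_p(f) = 0`. -/
theorem tpMap_eq_zero {f : AddMonoid.End E} (h : ∀ n, ∀ x ∈ lvl E p n, f x = 0) :
    (tpMap f : Module.End ℤ_[p] (Tp E p)) = 0 :=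
  LinearMap.ext fun x => ext_val fun n => h n _ (val_mem x n)

/-- **adic continuity**: if `f` is the identity on `E[p^n]` then `T_p(f) v − v ∈ 𝔪^n T_p`. -/
theorem tpMap_sub_mem {f : AddMonoid.End E} {n : ℕ} (h : ∀ x ∈ lvl E p n, f x = x) (v : Tp E p) :
    tpMap f v - v ∈ (maximalIdeal ℤ_[p] ^ n) • (⊤ : Submodule ℤ_[p] (Tp E p)) := by
  rw [mem_pow_smul_top_iff, val_sub, val_tpMap, h _ (val_mem v n), sub_self]

end Fermat.Agent.GE7.TateAbs
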