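/-
S59 PRE-WORK / E7 core, file 2 (helper64): the abstract Tate module is FREE OF RANK 2.  Mathlib only.

Input: `PDiv E p` (`p`-divisibility of the `p`-primary torsion) and a level-one basis
`Basis1 E p e₁ e₂` (`E[p] = (ℤ/p) e₁ ⊕ (ℤ/p) e₂`, elementary form) — both follow from the counts
`#E[p^n] = p^(2n)` (`pdiv_of_card`, `exists_basis1_of_card`).

Output: `tpBasis : Module.Basis (Fin 2) ℤ_[p] (Tp E p)`, hence `Module.Free`, `Module.Finite`,
`finrank_tp : Module.finrank ℤ_[p] (Tp E p) = 2` (`free_of_card`, `finite_of_card`,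
`finrank_of_card`).
-/
import Fermat.Agent.GE7.TateAbs.Defs

set_option autoImplicit false

noncomputable section

namespace Fermat.Agent.GE7.TateAbs

open PadicInt IsLocalRing

variable {E : Type*} [AddCommGroup E] {p : ℕ}

/-- `E[p] = (ℤ/p) e₁ ⊕ (ℤ/p) e₂`, in elementary form. -/
structure Basis1 (E : Type*) [AddCommGroup E] (p : ℕ) (e₁ e₂ : E) : Prop where
  h₁ : p • e₁ = 0
  h₂ : p • e₂ = 0
  span : ∀ x : E, p • x = 0 → ∃ i j : ℕ, x = i • e₁ + j • e₂
  indep : ∀ i j : ℕ, i • e₁ + j • e₂ = 0 → p ∣ i ∧ p ∣ j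

variable [hp : Fact p.Prime]

/-! ### `p ∣ a` in `ℤ_[p]` through `appr 1` -/

theorem appr_one_eq_zero_iff (a : ℤ_[p]) : a.appr 1 = 0 ↔ ∃ a' : ℤ_[p], a = (p : ℤ_[p]) * a' := by
  constructor
  · intro h
    have h1 := appr_spec 1 a
    rw [h, Nat.cast_zero, sub_zero, pow_one, Ideal.mem_span_singleton] at h1
    exact h1
  · rintro ⟨a', rfl⟩
    have h1 : toZModPow 1 ((p : ℤ_[p]) * a') = 0 := by
      rw [← RingHom.mem_ker, ker_toZModPow, pow_one, Ideal.mem_span_singleton]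
      exact Dvd.intro _ rfl
    have h2 : toZModPow 1 ((p : ℤ_[p]) * a') = (((p : ℤ_[p]) * a').appr 1 : ZMod (p ^ 1)) := rfl
    rw [h2, ZMod.natCast_eq_zero_iff] at h1
    exact Nat.eq_zero_of_dvd_of_lt h1 (appr_lt _ _)

section Lift

variable (hdiv : PDiv E p) {e₁ e₂ : E} (B : Basis1 E p e₁ e₂)

include hdiv B in
/-- lifts of the level-one basis to `T_p`. -/
theorem exists_lifts : ∃ f₁ f₂ : Tp E p, val f₁ 1 = e₁ ∧ val f₂ 1 = e₂ := by
  have he₁ : e₁ ∈ lvl E p 1 := by rw [mem_lvl, pow_one]; exact B.h₁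
  have he₂ : e₂ ∈ lvl E p 1 := by rw [mem_lvl, pow_one]; exact B.h₂
  obtain ⟨f₁, hf₁⟩ := proj_surjective hdiv 1 ⟨e₁, he₁⟩
  obtain ⟨f₂, hf₂⟩ := proj_surjective hdiv 1 ⟨e₂, he₂⟩
  exact ⟨f₁, f₂, by rw [← coe_proj, hf₁], by rw [← coe_proj, hf₂]⟩

variable {f₁ f₂ : Tp E p} (h₁ : val f₁ 1 = e₁) (h₂ : val f₂ 1 = e₂)

include B h₁ h₂ in
/-- **Key lemma**: `a f₁ + b f₂ ∈ p T_p` forces `p ∣ a`, `p ∣ b`, and one may divide. -/
theorem exists_div_of_eq_p_smul {a b : ℤ_[p]} {t : Tp E p}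
    (h : a • f₁ + b • f₂ = (p : ℤ_[p]) • t) :
    ∃ a' b' : ℤ_[p], a = (p : ℤ_[p]) * a' ∧ b = (p : ℤ_[p]) * b' ∧ a' • f₁ + b' • f₂ = t := by
  have ht : p • val t 1 = 0 := by
    have := pow_nsmul_val t 1
    rwa [pow_one] at this
  have hv : val (a • f₁ + b • f₂) 1 = val ((p : ℤ_[p]) • t) 1 := by rw [h]
  rw [val_natCast_smul, val_add, val_smul, val_smul, h₁, h₂, ht] at hv
  obtain ⟨ha, hb⟩ := B.indep _ _ hv
  have ha0 : a.appr 1 = 0 := Nat.eq_zero_of_dvd_of_lt ha (by simpa using appr_lt a 1)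
  have hb0 : b.appr 1 = 0 := Nat.eq_zero_of_dvd_of_lt hb (by simpa using appr_lt b 1)
  obtain ⟨a', rfl⟩ := (appr_one_eq_zero_iff a).mp ha0
  obtain ⟨b', rfl⟩ := (appr_one_eq_zero_iff b).mp hb0
  refine ⟨a', b', rfl, rfl, ?_⟩
  have h3 : (p : ℤ_[p]) • (a' • f₁ + b' • f₂ - t) = 0 := by
    rw [smul_sub, smul_add, smul_smul, smul_smul, h, sub_self]
  exact sub_eq_zero.mp (eq_zero_of_p_smul h3)

include B h₁ h₂ in
theorem pow_dvd_of_eq_zero (n : ℕ) : ∀ {a b : ℤ_[p]}, a • f₁ + b • f₂ = 0 →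
    (p : ℤ_[p]) ^ n ∣ a ∧ (p : ℤ_[p]) ^ n ∣ b := by
  induction n with
  | zero => intro a b _; simp
  | succ n ih =>
    intro a b h
    have h0 : a • f₁ + b • f₂ = (p : ℤ_[p]) • (0 : Tp E p) := by rw [h, smul_zero]
    obtain ⟨a', b', rfl, rfl, h'⟩ := exists_div_of_eq_p_smul B h₁ h₂ h0
    obtain ⟨ha, hb⟩ := ih h'
    rw [pow_succ']
    exact ⟨mul_dvd_mul_left _ ha, mul_dvd_mul_left _ hb⟩

omit [AddCommGroup E] in
theorem eq_zero_of_forall_pow_dvd {a : ℤ_[p]} (h : ∀ n, (p : ℤ_[p]) ^ n ∣ a) : a = 0 := by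
  rw [← ext_of_toZModPow]
  intro n
  rw [map_zero, ← RingHom.mem_ker, ker_toZModPow, Ideal.mem_span_singleton]
  exact h n

include B h₁ h₂ in
/-- **linear independence** of the lifts. -/
theorem eq_zero_of_smul_add_smul_eq_zero {a b : ℤ_[p]} (h : a • f₁ + b • f₂ = 0) :
    a = 0 ∧ b = 0 :=
  ⟨eq_zero_of_forall_pow_dvd fun n => (pow_dvd_of_eq_zero B h₁ h₂ n h).1,
    eq_zero_of_forall_pow_dvd fun n => (pow_dvd_of_eq_zero B h₁ h₂ n h).2⟩

include B h₁ h₂ in
/-- **one approximation step**: `x = a f₁ + b f₂ + p x'`. -/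
theorem exists_step (x : Tp E p) :
    ∃ (a b : ℤ_[p]) (x' : Tp E p), x = a • f₁ + b • f₂ + (p : ℤ_[p]) • x' := by
  have hx : p • val x 1 = 0 := by
    have := pow_nsmul_val x 1
    rwa [pow_one] at this
  obtain ⟨i, j, hij⟩ := B.span _ hx
  have h0 : val (x - ((i : ℤ_[p]) • f₁ + (j : ℤ_[p]) • f₂)) 1 = 0 := by
    rw [val_sub, val_add, val_natCast_smul, val_natCast_smul, h₁, h₂, hij, sub_self]
  obtain ⟨x', hx'⟩ := exists_pow_smul_eq h0
  refine ⟨i, j, x', ?_⟩
  rw [pow_one] at hx'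
  rw [hx']
  abel

/-- the state of the successive approximation: `(A, B, y)` with `x = A f₁ + B f₂ + p^n y`. -/
def approx (f₁ f₂ : Tp E p) (st : Tp E p → ℤ_[p] × ℤ_[p] × Tp E p) (x : Tp E p) :
    ℕ → ℤ_[p] × ℤ_[p] × Tp E p
  | 0 => (0, 0, x)
  | n + 1 =>
    let s := approx f₁ f₂ st x n
    let r := st s.2.2
    (s.1 + (p : ℤ_[p]) ^ n * r.1, s.2.1 + (p : ℤ_[p]) ^ n * r.2.1, r.2.2)

include B h₁ h₂ in
/-- **the lifts span `T_p`**. -/
theorem exists_eq_smul_add_smul (x : Tp E p) : ∃ a b : ℤ_[p], x = a • f₁ + b • f₂ := by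
  classical
  -- a choice of the approximation step
  choose sa sb sx hs using exists_step B h₁ h₂
  let st : Tp E p → ℤ_[p] × ℤ_[p] × Tp E p := fun y => (sa y, sb y, sx y)
  let S := approx f₁ f₂ st x
  have hS0 : S 0 = (0, 0, x) := rfl
  have hSs : ∀ n, S (n + 1) = ((S n).1 + (p : ℤ_[p]) ^ n * sa (S n).2.2,
      (S n).2.1 + (p : ℤ_[p]) ^ n * sb (S n).2.2, sx (S n).2.2) := fun n => rfl
  -- the invariant
  have hinv : ∀ n, x = (S n).1 • f₁ + (S n).2.1 • f₂ + (p : ℤ_[p]) ^ n • (S n).2.2 := by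
    intro n
    induction n with
    | zero => rw [hS0]; simp
    | succ n ih =>
      rw [hSs n]
      simp only
      conv_lhs => rw [ih, hs (S n).2.2]
      rw [pow_succ, smul_add, smul_add, add_smul, add_smul, mul_smul, mul_smul, mul_smul,
        smul_smul ((p : ℤ_[p]) ^ n) (p : ℤ_[p])]
      abel
  -- the coefficient sequences are adically Cauchy
  have hA : ∀ n, (S (n + 1)).1 - (S n).1 = (p : ℤ_[p]) ^ n * sa (S n).2.2 := by
    intro n; rw [hSs n]; simp
  have hB : ∀ n, (S (n + 1)).2.1 - (S n).2.1 = (p : ℤ_[p]) ^ n * sb (S n).2.2 := by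
    intro n; rw [hSs n]; simp
  have hcauchy : ∀ (g : ℕ → ℤ_[p]), (∀ n, (p : ℤ_[p]) ^ n ∣ g (n + 1) - g n) →
      ∃ L : ℤ_[p], ∀ n, (p : ℤ_[p]) ^ n ∣ g n - L := by
    intro g hg
    have hmn : ∀ m k, (p : ℤ_[p]) ^ m ∣ g (m + k) - g m := by
      intro m k
      induction k with
      | zero => simp
      | succ k ih =>
        have h1 : (p : ℤ_[p]) ^ m ∣ g (m + k + 1) - g (m + k) :=
          (pow_dvd_pow _ (Nat.le_add_right m k)).trans (hg (m + k))
        have h2 : g (m + (k + 1)) - g m = (g (m + k + 1) - g (m + k)) + (g (m + k) - g m) := by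
          rw [← add_assoc]; ring
        rw [h2]
        exact dvd_add h1 ih
    obtain ⟨L, hL⟩ := IsPrecomplete.prec' (I := maximalIdeal ℤ_[p]) (M := ℤ_[p]) g (by
      intro m n hmn'
      obtain ⟨k, rfl⟩ := Nat.exists_eq_add_of_le hmn'
      rw [SModEq.sub_mem, smul_eq_mul, Ideal.mul_top, maximalIdeal_eq_span_p,
        Ideal.span_singleton_pow, Ideal.mem_span_singleton]
      have := hmn m k
      rwa [← neg_sub, dvd_neg] at this)
    refine ⟨L, fun n => ?_⟩
    have := hL n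
    rwa [SModEq.sub_mem, smul_eq_mul, Ideal.mul_top, maximalIdeal_eq_span_p,
      Ideal.span_singleton_pow, Ideal.mem_span_singleton] at this
  obtain ⟨a, ha⟩ := hcauchy (fun n => (S n).1) (fun n => by rw [hA n]; exact Dvd.intro _ rfl)
  obtain ⟨b, hb⟩ := hcauchy (fun n => (S n).2.1) (fun n => by rw [hB n]; exact Dvd.intro _ rfl)
  refine ⟨a, b, ?_⟩
  -- `x − (a f₁ + b f₂) ∈ p^n T_p` for every `n`
  have hzero : x - (a • f₁ + b • f₂) = 0 := by
    apply eq_zero_of_forall_val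
    intro n
    obtain ⟨ca, hca⟩ := ha n
    obtain ⟨cb, hcb⟩ := hb n
    have h1 : x - (a • f₁ + b • f₂) =
        (p : ℤ_[p]) ^ n • (ca • f₁ + cb • f₂ + (S n).2.2) := by
      conv_lhs => rw [hinv n]
      have e1 : (S n).1 = a + (p : ℤ_[p]) ^ n * ca := by rw [← hca]; ring
      have e2 : (S n).2.1 = b + (p : ℤ_[p]) ^ n * cb := by rw [← hcb]; ring
      rw [e1, e2, add_smul, add_smul, mul_smul, mul_smul, smul_add, smul_add]
      abel
    rw [h1, ← Nat.cast_pow, val_natCast_smul, pow_nsmul_val]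
  exact sub_eq_zero.mp hzero

include B h₁ h₂ in
/-- **the basis** `(f₁, f₂)` of `T_p(E)` over `ℤ_[p]`. -/
theorem exists_basis : ∃ b : Module.Basis (Fin 2) ℤ_[p] (Tp E p), b 0 = f₁ ∧ b 1 = f₂ := by
  have hli : LinearIndependent ℤ_[p] ![f₁, f₂] :=
    LinearIndependent.pair_iff.mpr fun s t h => eq_zero_of_smul_add_smul_eq_zero B h₁ h₂ h
  have hsp : ⊤ ≤ Submodule.span ℤ_[p] (Set.range ![f₁, f₂]) := by
    intro x _
    obtain ⟨a, b, rfl⟩ := exists_eq_smul_add_smul B h₁ h₂ x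
    rw [Matrix.range_cons_cons_empty, Submodule.mem_span_pair]
    exact ⟨a, b, rfl⟩
  refine ⟨Module.Basis.mk hli hsp, ?_, ?_⟩
  · rw [Module.Basis.mk_apply]; rfl
  · rw [Module.Basis.mk_apply]; rfl

end Lift

/-! ### Consequences -/

theorem free_of_basis1 (hdiv : PDiv E p) {e₁ e₂ : E} (B : Basis1 E p e₁ e₂) :
    Module.Free ℤ_[p] (Tp E p) := by
  obtain ⟨f₁, f₂, h₁, h₂⟩ := exists_lifts hdiv B
  obtain ⟨b, -, -⟩ := exists_basis B h₁ h₂
  exact Module.Free.of_basis b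

theorem finite_of_basis1 (hdiv : PDiv E p) {e₁ e₂ : E} (B : Basis1 E p e₁ e₂) :
    Module.Finite ℤ_[p] (Tp E p) := by
  obtain ⟨f₁, f₂, h₁, h₂⟩ := exists_lifts hdiv B
  obtain ⟨b, -, -⟩ := exists_basis B h₁ h₂
  exact Module.Finite.of_basis b

theorem finrank_of_basis1 (hdiv : PDiv E p) {e₁ e₂ : E} (B : Basis1 E p e₁ e₂) :
    Module.finrank ℤ_[p] (Tp E p) = 2 := by
  obtain ⟨f₁, f₂, h₁, h₂⟩ := exists_lifts hdiv B
  obtain ⟨b, -, -⟩ := exists_basis B h₁ h₂
  rw [Module.finrank_eq_card_basis b, Fintype.card_fin]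

/-! ### From the counts `#E[p^n] = p^(2n)` -/

omit hp in
/-- `p`-divisibility of the `p`-primary torsion from the counts. -/
theorem pdiv_of_card (hp' : p.Prime) (hcard : ∀ n, Nat.card (lvl E p n) = p ^ (2 * n)) :
    PDiv E p := by
  rintro z ⟨k, hz⟩
  have hpos : ∀ n, 0 < p ^ (2 * n) := fun n => pow_pos hp'.pos _
  have hfin : ∀ n, Finite (lvl E p n) := fun n =>
    Nat.finite_of_card_ne_zero (by rw [hcard n]; exact (hpos n).ne')
  have := hfin (k + 1)
  have := hfin k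
  -- multiplication by `p` : `E[p^(k+1)] → E[p^k]`
  let f : lvl E p (k + 1) →+ lvl E p k :=
    { toFun := fun x => ⟨p • (x : E), nsmul_mem_lvl x.2⟩
      map_zero' := Subtype.ext (by simp)
      map_add' := fun x y => Subtype.ext (by simp [smul_add]) }
  -- its kernel is `E[p]`
  have hker : Nat.card f.ker = Nat.card (lvl E p 1) := by
    refine Nat.card_congr ⟨fun x => ⟨(x : lvl E p (k + 1)), ?_⟩,
      fun x => ⟨⟨(x : E), lvl_mono (Nat.le_add_left 1 k) x.2⟩, ?_⟩, ?_, ?_⟩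
    · have hx := x.2
      rw [AddMonoidHom.mem_ker] at hx
      have hx' : p • ((x : lvl E p (k + 1)) : E) = 0 := congrArg Subtype.val hx
      rw [mem_lvl, pow_one]
      exact hx'
    · rw [AddMonoidHom.mem_ker]
      apply Subtype.ext
      have hx := x.2
      rw [mem_lvl, pow_one] at hx
      exact hx
    · intro x; rfl
    · intro x; rfl
  have hsurj : Function.Surjective f := by
    apply AddMonoidHom.surjective_of_card_ker_le_div
    rw [hker, hcard, hcard, hcard]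
    have h1 : p ^ (2 * (k + 1)) = p ^ (2 * k) * p ^ (2 * 1) := by rw [← pow_add]; ring_nf
    rw [h1, Nat.mul_div_cancel_left _ (hpos k)]
  obtain ⟨w, hw⟩ := hsurj ⟨z, mem_lvl.mpr hz⟩
  exact ⟨(w : E), congrArg Subtype.val hw⟩

/-- a two-dimensional `𝔽_p`-vector space with `p²` elements has an elementary basis. -/
theorem exists_basis1_of_module {V : Type*} [AddCommGroup V] [Module (ZMod p) V] [Finite V]
    (hcard : Nat.card V = p ^ 2) :
    ∃ v₁ v₂ : V, (∀ x : V, ∃ i j : ℕ, x = i • v₁ + j • v₂) ∧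
      ∀ i j : ℕ, i • v₁ + j • v₂ = 0 → p ∣ i ∧ p ∣ j := by
  classical
  have hrank : Module.finrank (ZMod p) V = 2 := by
    have h1 := Module.natCard_eq_pow_finrank (K := ZMod p) (V := V)
    rw [hcard, Nat.card_zmod] at h1
    exact (Nat.pow_right_injective hp.out.two_le h1).symm
  let b := Module.finBasisOfFinrankEq (ZMod p) V hrank
  have hsmul : ∀ (c : ZMod p) (v : V), c • v = c.val • v := fun c v => by
    conv_lhs => rw [← ZMod.natCast_zmod_val c]
    exact Nat.cast_smul_eq_nsmul _ _ _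
  refine ⟨b 0, b 1, ?_, ?_⟩
  · intro x
    have h1 := b.sum_repr x
    rw [Fin.sum_univ_two, hsmul, hsmul] at h1
    exact ⟨(b.repr x 0).val, (b.repr x 1).val, h1.symm⟩
  · intro i j hij
    have h1 : (i : ZMod p) • b 0 + (j : ZMod p) • b 1 = 0 := by
      rw [Nat.cast_smul_eq_nsmul, Nat.cast_smul_eq_nsmul]
      exact hij
    have hli := b.linearIndependent
    have h2 := (Fintype.linearIndependent_iff.mp hli) ![(i : ZMod p), (j : ZMod p)]
      (by rw [Fin.sum_univ_two]; simpa using h1)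
    have h20 := h2 0
    have h21 := h2 1
    simp only [Matrix.cons_val_zero, Matrix.cons_val_one] at h20 h21
    exact ⟨(ZMod.natCast_eq_zero_iff i p).mp h20, (ZMod.natCast_eq_zero_iff j p).mp h21⟩

/-- a level-one basis from the count `#E[p] = p²`. -/
theorem exists_basis1_of_card (hcard : Nat.card (lvl E p 1) = p ^ 2) :
    ∃ e₁ e₂ : E, Basis1 E p e₁ e₂ := by
  have hV : ∀ x : lvl E p 1, p • x = 0 := fun x => by
    have := pow_nsmul_lvl x
    rwa [pow_one] at this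
  let _ : Module (ZMod p) (lvl E p 1) := AddCommGroup.zmodModule hV
  have hfinV : Finite (lvl E p 1) := Nat.finite_of_card_ne_zero (by
    rw [hcard]; exact (pow_pos hp.out.pos 2).ne')
  obtain ⟨v₁, v₂, hspan, hind⟩ := exists_basis1_of_module (p := p) (V := lvl E p 1) hcard
  refine ⟨(v₁ : E), (v₂ : E), ?_, ?_, ?_, ?_⟩
  · exact congrArg Subtype.val (hV v₁)
  · exact congrArg Subtype.val (hV v₂)
  · intro x hx
    have hxV : x ∈ lvl E p 1 := by rw [mem_lvl, pow_one]; exact hx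
    obtain ⟨i, j, hij⟩ := hspan ⟨x, hxV⟩
    refine ⟨i, j, ?_⟩
    have h2 := congrArg Subtype.val hij
    simp only [AddSubgroup.coe_add, AddSubgroup.coe_nsmul] at h2
    exact h2
  · intro i j hij
    apply hind
    apply Subtype.ext
    simp only [AddSubgroup.coe_add, AddSubgroup.coe_nsmul]
    exact hij

section Card

variable (hcard : ∀ n, Nat.card (lvl E p n) = p ^ (2 * n))
include hcard

theorem free_of_card : Module.Free ℤ_[p] (Tp E p) := by
  obtain ⟨e₁, e₂, B⟩ := exists_basis1_of_card (E := E) (p := p) (by simpa using hcard 1)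
  exact free_of_basis1 (pdiv_of_card hp.out hcard) B

theorem finite_of_card : Module.Finite ℤ_[p] (Tp E p) := by
  obtain ⟨e₁, e₂, B⟩ := exists_basis1_of_card (E := E) (p := p) (by simpa using hcard 1)
  exact finite_of_basis1 (pdiv_of_card hp.out hcard) B

theorem finrank_of_card : Module.finrank ℤ_[p] (Tp E p) = 2 := by
  obtain ⟨e₁, e₂, B⟩ := exists_basis1_of_card (E := E) (p := p) (by simpa using hcard 1)
  exact finrank_of_basis1 (pdiv_of_card hp.out hcard) B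

theorem proj_surjective_of_card (n : ℕ) : Function.Surjective (proj E p n) :=
  proj_surjective (pdiv_of_card hp.out hcard) n

end Card

end Fermat.Agent.GE7.TateAbs
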