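/-
S59 PRE-WORK / E7 core, file 3 (helper64): the abstract Tate module WITH GALOIS ACTION, packaged as
a Prelude `GaloisRepAdic ℤ_[p]`.  Mathlib + `Def_GaloisRep_Adic` only.

Input: an abelian group `E : Type` with `[DistribMulAction GQ E]` (application: `E = W(ℚ̄)` with the
Prelude Galois action), the counts `#E[p^n] = p^(2n)` and `LevelFinite E p` (each `E[p^n]` is fixed
pointwise by an open subgroup; for `W(ℚ̄)`: `GE/Top/ECAssembly.galEnd_level`).

Output:
* `galRho E p : GQ →* Module.End ℤ_[p] (Tp E p)`, `val_galRho : val (galRho σ x) n = σ • val x n`;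
* `tateRep E p hcard hlev : GaloisRepAdic ℤ_[p]` with `V = Tp E p`, `ρ = galRho E p` (rfl-lemmas);
* transfer of levelwise relations to `T_p`: `galRho_eq_one` (unramified), `galRho_unipotent`
  (`(σ − 1)² = 0`), `galRho_quadratic` (`τ² − a τ + ℓ = 0`), in pointwise form;
* residual seam: `proj_one_galRho` (`T_p → E[p]` is Galois-equivariant; with `Defs.ker_proj 1`,
  `Free.proj_surjective_of_card 1`: `T_p / 𝔪 T_p ≅ E[p]` as Galois modules).
-/
import Fermat.Agent.GE7.TateAbs.Free
import Fermat.Prelude.Def_GaloisRep_Adic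

set_option autoImplicit false

noncomputable section

namespace Fermat.Agent.GE7.TateAbs

open PadicInt IsLocalRing

local notation "GQ" => (AlgebraicClosure ℚ ≃ₐ[ℚ] AlgebraicClosure ℚ)

section Action

variable (G : Type*) [Monoid G] (E : Type*) [AddCommGroup E] [DistribMulAction G E]
  (p : ℕ) [hp : Fact p.Prime]

/-- the action of `G` on `T_p(E)`. -/
def actRho : G →* Module.End ℤ_[p] (Tp E p) :=
  (tpMap (E := E) (p := p)).comp (DistribMulAction.toAddMonoidEnd G E)

variable {G E p}

@[simp] theorem val_actRho (σ : G) (x : Tp E p) (n : ℕ) :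
    val (actRho G E p σ x) n = σ • val x n := rfl

/-- `σ` trivial on every level ⟹ trivial on `T_p`. -/
theorem actRho_eq_one {σ : G} (h : ∀ n, ∀ P ∈ lvl E p n, σ • P = P) : actRho G E p σ = 1 :=
  LinearMap.ext fun x => ext_val fun n => by
    rw [val_actRho, h n _ (val_mem x n)]; rfl

/-- `σ` unipotent of level two on every level ⟹ `(ρ σ − 1)² = 0` on `T_p`. -/
theorem actRho_unipotent {σ : G}
    (h : ∀ n, ∀ P ∈ lvl E p n, σ • (σ • P - P) = σ • P - P) (x : Tp E p) :
    actRho G E p σ (actRho G E p σ x - x) = actRho G E p σ x - x :=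
  ext_val fun n => by
    rw [val_actRho, val_sub, val_actRho, h n _ (val_mem x n)]

theorem actRho_sub_one_sq {σ : G}
    (h : ∀ n, ∀ P ∈ lvl E p n, σ • (σ • P - P) = σ • P - P) :
    (actRho G E p σ - 1) * (actRho G E p σ - 1) = 0 :=
  LinearMap.ext fun x => by
    have := actRho_unipotent (p := p) h x
    simp only [Module.End.mul_apply, LinearMap.sub_apply, Module.End.one_apply, LinearMap.zero_apply]
    rw [map_sub, sub_eq_zero]
    rw [← this, map_sub]

/-- a quadratic relation `τ² − a τ + ℓ = 0` (integers `a`, `ℓ`) on every level transfers to `T_p`. -/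
theorem actRho_quadratic {τ : G} (a l : ℤ)
    (h : ∀ n, ∀ P ∈ lvl E p n, τ • τ • P - a • τ • P + l • P = 0) (x : Tp E p) :
    actRho G E p τ (actRho G E p τ x) - (a : ℤ_[p]) • actRho G E p τ x + (l : ℤ_[p]) • x = 0 :=
  ext_val fun n => by
    rw [val_add, val_sub, val_intCast_smul, val_intCast_smul, val_actRho, val_actRho,
      h n _ (val_mem x n)]
    rfl

/-- the projection to level `n` is equivariant. -/
theorem proj_actRho (n : ℕ) (σ : G) (x : Tp E p) :
    ((proj E p n (actRho G E p σ x) : lvl E p n) : E) = σ • ((proj E p n x : lvl E p n) : E) := rfl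

/-- **adic continuity**: `σ` trivial on `E[p^n]` ⟹ `ρ σ v − v ∈ 𝔪^n T_p`. -/
theorem actRho_sub_mem {σ : G} {n : ℕ} (h : ∀ P ∈ lvl E p n, σ • P = P) (v : Tp E p) :
    actRho G E p σ v - v ∈ (maximalIdeal ℤ_[p] ^ n) • (⊤ : Submodule ℤ_[p] (Tp E p)) := by
  rw [mem_pow_smul_top_iff, val_sub, val_actRho, h _ (val_mem v n), sub_self]

end Action

section Galois

variable (E : Type) [AddCommGroup E] [DistribMulAction GQ E] (p : ℕ) [hp : Fact p.Prime]

/-- every level `E[p^n]` is fixed pointwise by an open subgroup of `G_ℚ`. -/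
def LevelFinite : Prop :=
  ∀ n : ℕ, ∃ L : IntermediateField ℚ (AlgebraicClosure ℚ), FiniteDimensional ℚ L ∧
    ∀ σ : GQ, (∀ x ∈ L, σ x = x) → ∀ P ∈ lvl E p n, σ • P = P

/-- the Galois action on the Tate module. -/
def galRho : GQ →* Module.End ℤ_[p] (Tp E p) := actRho GQ E p

variable {E p}

@[simp] theorem val_galRho (σ : GQ) (x : Tp E p) (n : ℕ) :
    val (galRho E p σ x) n = σ • val x n := rfl

theorem galRho_isAdicContinuous (h : LevelFinite E p) :
    GaloisActionIsAdicContinuous ℤ_[p] (galRho E p) := by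
  intro n
  obtain ⟨L, hL, hfix⟩ := h n
  exact ⟨L, hL, fun σ hσ v => actRho_sub_mem (hfix σ hσ) v⟩

variable (E p)

/-- **the `p`-adic Tate module as a Prelude `GaloisRepAdic ℤ_[p]`.** -/
def tateRep (hcard : ∀ n, Nat.card (lvl E p n) = p ^ (2 * n)) (hlev : LevelFinite E p) :
    GaloisRepAdic ℤ_[p] :=
  letI := free_of_card hcard
  letI := finite_of_card hcard
  { V := Tp E p
    finrank_eq := finrank_of_card hcard
    ρ := galRho E p
    isAdicContinuous := galRho_isAdicContinuous hlev }

variable {E p}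

theorem tateRep_V (hcard : ∀ n, Nat.card (lvl E p n) = p ^ (2 * n)) (hlev : LevelFinite E p) :
    (tateRep E p hcard hlev).V = Tp E p := rfl

theorem tateRep_ρ (hcard : ∀ n, Nat.card (lvl E p n) = p ^ (2 * n)) (hlev : LevelFinite E p)
    (σ : GQ) : (tateRep E p hcard hlev).ρ σ = galRho E p σ := rfl

/-- unramified: inertia trivial on all levels ⟹ `ρ σ = 1`. -/
theorem tateRep_ρ_eq_one (hcard : ∀ n, Nat.card (lvl E p n) = p ^ (2 * n))
    (hlev : LevelFinite E p) {σ : GQ} (h : ∀ n, ∀ P ∈ lvl E p n, σ • P = P) :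
    (tateRep E p hcard hlev).ρ σ = 1 :=
  actRho_eq_one h

end Galois

end Fermat.Agent.GE7.TateAbs
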