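/-
S59 PRE-WORK / E7 core, file 5 (helper64): the abstract Tate module is STRICTLY ORDINARY at `p`
(frozen `GaloisRepAdic.IsStrictOrdinaryAt`) as soon as `E` carries, for every place `A | p`, a
"canonical subgroup" `C ≤ E` with the levelwise properties `OrdDataAt` (the finite-level shape of
helper25's `OrdAtMult`: multiplicative reduction via the Tate curve; also ordinary good reduction
with `C` = kernel of reduction).  Mathlib + Prelude definitions only.
-/
import Fermat.Agent.GE7.TateAbs.Line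
import Fermat.Agent.GE7.TateAbs.Gal
import Fermat.Prelude.Def_GaloisRep_StrictOrdinary

set_option autoImplicit false

noncomputable section

namespace Fermat.Agent.GE7.TateAbs

open PadicInt IsLocalRing

local notation "GQ" => (AlgebraicClosure ℚ ≃ₐ[ℚ] AlgebraicClosure ℚ)
local notation "Qb" => AlgebraicClosure ℚ

variable (E : Type) [AddCommGroup E] [DistribMulAction GQ E] (p : ℕ) [hp : Fact p.Prime]

/-- the levelwise ordinary structure at one place `A | p`: a `D_A`-stable subgroup `C` with cyclic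
levels, inertia trivial on `E/C`, `D_A` acting on `C[p^n]` through `δ·χ_cyc` and on `E/C` through
the integer `δ` (`δ² = 1` is not needed). -/
structure OrdDataAt (A : ValuationSubring Qb) (C : AddSubgroup E) (δ : GQ → ℤ) : Prop where
  stable : ∀ σ ∈ A.decompositionSubgroup ℚ, ∀ P ∈ C, σ • P ∈ C
  cyc : CycLevels E p C
  inertia : ∀ σ ∈ A.inertiaSubgroupIn ℚ, ∀ n : ℕ, ∀ P : E, p ^ n • P = 0 → σ • P - P ∈ C
  quot : ∀ σ ∈ A.decompositionSubgroup ℚ, ∀ n : ℕ, ∀ P : E, p ^ n • P = 0 → σ • P - δ σ • P ∈ C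
  line : ∀ σ ∈ A.decompositionSubgroup ℚ, ∀ n a : ℕ,
    (∀ μ : Qb, μ ^ p ^ n = 1 → σ μ = μ ^ a) → ∀ P ∈ C, p ^ n • P = 0 → σ • P = (δ σ * a) • P

/-- the ordinary structure at every place over `p`. -/
def OrdData : Prop :=
  ∀ A : ValuationSubring Qb, A.LiesOverPrime p → ∃ (C : AddSubgroup E) (δ : GQ → ℤ),
    OrdDataAt E p A C δ

variable {E p}

/-- **the Tate module is strictly ordinary at `p`** (frozen shape). -/
theorem isStrictOrdinaryAt_tateRep (hcard : ∀ n, Nat.card (lvl E p n) = p ^ (2 * n))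
    (hlev : LevelFinite E p) (h : OrdData E p) :
    (tateRep E p hcard hlev).IsStrictOrdinaryAt p := by
  refine ⟨?_, fun A hA => ?_⟩
  · rw [maximalIdeal_eq_span_p]
    exact Ideal.mem_span_singleton_self _
  obtain ⟨C, δ, hD⟩ := h A hA
  obtain ⟨b, hL, hord⟩ := exists_line_basis (E := E) (p := p) hcard hD.cyc
  have hb₀ : b 0 ∈ lineSub (p := p) C := by
    rw [hL]; exact Submodule.mem_span_singleton_self _
  refine ⟨lineSub (p := p) C, ⟨b, hL⟩, ?_, ?_, ?_⟩
  · intro σ hσ v hv
    exact tpMap_mem_lineSub (f := DistribMulAction.toAddMonoidEnd GQ E σ)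
      (fun P hP => hD.stable σ hσ P hP) hv
  · intro σ hσ v
    exact tpMap_sub_mem_lineSub (f := DistribMulAction.toAddMonoidEnd GQ E σ)
      (fun n P hP => hD.inertia σ hσ n P (mem_lvl.mp hP)) v
  · intro σ hσ
    obtain ⟨x, hx⟩ := exists_scalar (p := p) hL (f := DistribMulAction.toAddMonoidEnd GQ E σ)
      (fun P hP => hD.stable σ hσ P hP)
    refine ⟨x, (δ σ : ℤ_[p]), fun w hw => hx w hw, fun v => ?_, fun n a ha => ?_⟩
    · exact tpMap_sub_smul_mem_lineSub (f := DistribMulAction.toAddMonoidEnd GQ E σ) (δ σ)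
        (fun n P hP => hD.quot σ hσ n P (mem_lvl.mp hP)) v
    · have h1 := scalar_sub_mem (p := p) hb₀ (hord n) (hx _ hb₀) (δ σ * a)
        (fun P hP hPn => hD.line σ hσ n a ha P hP hPn)
      have h2 : x - (a : ℤ_[p]) * (δ σ : ℤ_[p]) = x - ((δ σ * a : ℤ) : ℤ_[p]) := by
        push_cast; ring
      rw [h2]
      exact h1

end Fermat.Agent.GE7.TateAbs
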