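/-
S59 PRE-WORK / E7 core, file 6 (helper64): the RESIDUAL SEAM of the abstract Tate module
(R1 of GATE-E GRAPH v0).  Mathlib + Prelude + `GE7/TateAbs` only.

* `isEquiv_of_surjective` : a surjective equivariant linear map between two `ResidualGaloisRep k`
  is an equivalence (both have dimension `2`);
* `redOne e : Tp E p →+ V` for an additive iso `e : V ≃+ lvl E p 1`, its properties;
* **`residual_tateRep_isEquiv`** : for ANY `rbar : ResidualGaloisRep (ZMod p)` which is
  `G_ℚ`-isomorphic to `E[p] = lvl E p 1` (additive iso `e`, `e (rbar.ρ σ v) = σ • e v`) and ANY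
  `ψ : ZMod p →+* ResidueField ℤ_[p]`:
  `(tateRep E p hcard hlev).residual.IsEquiv (rbar.baseChangeAlong ψ)`.
-/
import Fermat.Agent.GE7.TateAbs.Gal

set_option autoImplicit false

noncomputable section

namespace Fermat.Agent.GE7.TateAbs

open PadicInt IsLocalRing
open scoped TensorProduct

local notation "GQ" => (AlgebraicClosure ℚ ≃ₐ[ℚ] AlgebraicClosure ℚ)

/-- a surjective equivariant linear map between residual representations is an equivalence. -/
theorem isEquiv_of_surjective {k : Type} [Field k] (ρ₁ ρ₂ : ResidualGaloisRep k)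
    (F : ρ₁.V →ₗ[k] ρ₂.V) (hF : Function.Surjective F)
    (hcomm : ∀ (σ : GQ) (x : ρ₁.V), F (ρ₁.ρ σ x) = ρ₂.ρ σ (F x)) : ρ₁.IsEquiv ρ₂ := by
  have hinj : Function.Injective F :=
    (LinearMap.injective_iff_surjective_of_finrank_eq_finrank
      (ρ₁.finrank_eq.trans ρ₂.finrank_eq.symm)).mpr hF
  exact ⟨{ toLinearEquiv := LinearEquiv.ofBijective F ⟨hinj, hF⟩
           map_apply := fun σ x => hcomm σ x }⟩

section Red

variable {E : Type*} [AddCommGroup E] {p : ℕ} [hp : Fact p.Prime]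
  {V : Type*} [AddCommGroup V]

/-- reduction `T_p(E) → E[p] ≅ V`. -/
def redOne (e : V ≃+ lvl E p 1) : Tp E p →+ V :=
  e.symm.toAddMonoidHom.comp (proj E p 1).toAddMonoidHom

theorem redOne_apply (e : V ≃+ lvl E p 1) (x : Tp E p) : redOne e x = e.symm (proj E p 1 x) := rfl

theorem coe_redOne (e : V ≃+ lvl E p 1) (x : Tp E p) : ((e (redOne e x) : lvl E p 1) : E) = val x 1 := by
  rw [redOne_apply, AddEquiv.apply_symm_apply]
  rfl

theorem redOne_smul (e : V ≃+ lvl E p 1) (a : ℤ_[p]) (x : Tp E p) :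
    redOne e (a • x) = a.appr 1 • redOne e x := by
  rw [redOne_apply, redOne_apply, map_smul, smul_lvl_eq, map_nsmul]

theorem redOne_surjective (e : V ≃+ lvl E p 1) (h : Function.Surjective (proj E p 1)) :
    Function.Surjective (redOne e) := fun v => by
  obtain ⟨x, hx⟩ := h (e v)
  exact ⟨x, by rw [redOne_apply, hx, AddEquiv.symm_apply_apply]⟩

end Red

section Main

variable {p : ℕ} [hp : Fact p.Prime]

/-- the residue of `a : ℤ_[p]` is the class of `a.appr 1`. -/
theorem residue_eq_appr_one (a : ℤ_[p]) :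
    residue ℤ_[p] a = ((a.appr 1 : ℕ) : ResidueField ℤ_[p]) := by
  have h : a - (a.appr 1 : ℤ_[p]) ∈ maximalIdeal ℤ_[p] := by
    rw [maximalIdeal_eq_span_p]
    have := appr_spec 1 a
    rwa [pow_one] at this
  have h0 := (residue_eq_zero_iff _).mpr h
  rw [map_sub, sub_eq_zero, map_natCast] at h0
  exact h0

variable {M : Type*} [AddCommGroup M] [Module ℤ_[p] M] {V : Type*} [AddCommGroup V]
  [Module (ZMod p) V] (ψ : ZMod p →+* ResidueField ℤ_[p])

/-- the additive map `k ⊗[ℤ_p] M → k ⊗[𝔽_p] V` induced by an additive `π : M → V` with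
`π (a • m) = a.appr 1 • π m`. -/
def resAdd (π : M →+ V) (hπ : ∀ (a : ℤ_[p]) (m : M), π (a • m) = a.appr 1 • π m) :
    letI : Algebra (ZMod p) (ResidueField ℤ_[p]) := ψ.toAlgebra
    ResidueField ℤ_[p] ⊗[ℤ_[p]] M →+ ResidueField ℤ_[p] ⊗[ZMod p] V :=
  letI : Algebra (ZMod p) (ResidueField ℤ_[p]) := ψ.toAlgebra
  TensorProduct.liftAddHom
    ({ toFun := fun c =>
          (TensorProduct.mk (ZMod p) (ResidueField ℤ_[p]) V c).toAddMonoidHom.comp π
       map_zero' := by
          ext m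
          simp
       map_add' := fun c c' => by
          ext m
          simp } :
      ResidueField ℤ_[p] →+ M →+ ResidueField ℤ_[p] ⊗[ZMod p] V)
    (by
      intro a c m
      show (a • c) ⊗ₜ[ZMod p] π m = c ⊗ₜ[ZMod p] π (a • m)
      rw [hπ, Algebra.smul_def, ResidueField.algebraMap_eq, residue_eq_appr_one,
        ← Nat.cast_smul_eq_nsmul (ZMod p) (a.appr 1) (π m), ← TensorProduct.smul_tmul,
        Algebra.smul_def, map_natCast])

theorem resAdd_tmul (π : M →+ V) (hπ : ∀ (a : ℤ_[p]) (m : M), π (a • m) = a.appr 1 • π m)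
    (c : ResidueField ℤ_[p]) (m : M) :
    letI : Algebra (ZMod p) (ResidueField ℤ_[p]) := ψ.toAlgebra
    resAdd ψ π hπ (c ⊗ₜ[ℤ_[p]] m) = c ⊗ₜ[ZMod p] π m := rfl

/-- the `k`-linear map `k ⊗[ℤ_p] M → k ⊗[𝔽_p] V`. -/
def resLin (π : M →+ V) (hπ : ∀ (a : ℤ_[p]) (m : M), π (a • m) = a.appr 1 • π m) :
    letI : Algebra (ZMod p) (ResidueField ℤ_[p]) := ψ.toAlgebra
    ResidueField ℤ_[p] ⊗[ℤ_[p]] M →ₗ[ResidueField ℤ_[p]] ResidueField ℤ_[p] ⊗[ZMod p] V :=
  letI : Algebra (ZMod p) (ResidueField ℤ_[p]) := ψ.toAlgebra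
  { toFun := resAdd ψ π hπ
    map_add' := map_add _
    map_smul' := fun c x => by
      induction x using TensorProduct.induction_on with
      | zero => simp
      | tmul c' m =>
        rw [TensorProduct.smul_tmul', resAdd_tmul, RingHom.id_apply, resAdd_tmul,
          TensorProduct.smul_tmul']
      | add x y hx hy => simp only [smul_add, map_add, hx, hy] }

theorem resLin_tmul (π : M →+ V) (hπ : ∀ (a : ℤ_[p]) (m : M), π (a • m) = a.appr 1 • π m)
    (c : ResidueField ℤ_[p]) (m : M) :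
    letI : Algebra (ZMod p) (ResidueField ℤ_[p]) := ψ.toAlgebra
    resLin ψ π hπ (c ⊗ₜ[ℤ_[p]] m) = c ⊗ₜ[ZMod p] π m := rfl

theorem resLin_surjective (π : M →+ V) (hπ : ∀ (a : ℤ_[p]) (m : M), π (a • m) = a.appr 1 • π m)
    (hsurj : Function.Surjective π) : Function.Surjective (resLin ψ π hπ) := by
  let _ : Algebra (ZMod p) (ResidueField ℤ_[p]) := ψ.toAlgebra
  intro y
  induction y using TensorProduct.induction_on with
  | zero => exact ⟨0, map_zero _⟩
  | tmul c v =>
    obtain ⟨m, rfl⟩ := hsurj v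
    exact ⟨c ⊗ₜ[ℤ_[p]] m, resLin_tmul ψ π hπ c m⟩
  | add x y hx hy =>
    obtain ⟨x', rfl⟩ := hx
    obtain ⟨y', rfl⟩ := hy
    exact ⟨x' + y', map_add _ _ _⟩

/-- `resLin` intertwines base-changed endomorphisms. -/
theorem resLin_comm (π : M →+ V) (hπ : ∀ (a : ℤ_[p]) (m : M), π (a • m) = a.appr 1 • π m)
    (f : M →ₗ[ℤ_[p]] M) (g : V →ₗ[ZMod p] V) (h : ∀ m, π (f m) = g (π m))
    (x : ResidueField ℤ_[p] ⊗[ℤ_[p]] M) :
    letI : Algebra (ZMod p) (ResidueField ℤ_[p]) := ψ.toAlgebra
    resLin ψ π hπ (f.baseChange (ResidueField ℤ_[p]) x) =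
      g.baseChange (ResidueField ℤ_[p]) (resLin ψ π hπ x) := by
  let _ : Algebra (ZMod p) (ResidueField ℤ_[p]) := ψ.toAlgebra
  induction x using TensorProduct.induction_on with
  | zero => simp only [map_zero]
  | tmul c m =>
    rw [LinearMap.baseChange_tmul, resLin_tmul, resLin_tmul, LinearMap.baseChange_tmul, h]
  | add x y hx hy => simp only [map_add, hx, hy]

end Main

section Galois

variable {E : Type} [AddCommGroup E] [DistribMulAction GQ E] {p : ℕ} [hp : Fact p.Prime]

/-- `redOne` is Galois-equivariant. -/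
theorem redOne_galRho {V : Type*} [AddCommGroup V] (e : V ≃+ lvl E p 1) (r : GQ → V → V)
    (he : ∀ (σ : GQ) (v : V), ((e (r σ v) : lvl E p 1) : E) = σ • ((e v : lvl E p 1) : E))
    (σ : GQ) (x : Tp E p) : redOne e (galRho E p σ x) = r σ (redOne e x) := by
  apply e.injective
  apply Subtype.ext
  rw [he, coe_redOne, coe_redOne, val_galRho]

/-- **the residual seam**: the residual representation of the abstract Tate module is (the base
change of) any model `rbar` of the Galois module `E[p]` over `ZMod p`. -/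
theorem residual_tateRep_isEquiv (hcard : ∀ n, Nat.card (lvl E p n) = p ^ (2 * n))
    (hlev : LevelFinite E p) (rbar : ResidualGaloisRep (ZMod p)) (e : rbar.V ≃+ lvl E p 1)
    (he : ∀ (σ : GQ) (v : rbar.V),
      ((e (rbar.ρ σ v) : lvl E p 1) : E) = σ • ((e v : lvl E p 1) : E))
    (ψ : ZMod p →+* ResidueField ℤ_[p]) :
    (tateRep E p hcard hlev).residual.IsEquiv (rbar.baseChangeAlong ψ) := by
  refine isEquiv_of_surjective (tateRep E p hcard hlev).residual (rbar.baseChangeAlong ψ)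
    (resLin ψ (redOne e) (redOne_smul e))
    (resLin_surjective ψ _ _ (redOne_surjective e (proj_surjective_of_card hcard 1))) ?_
  intro σ x
  exact resLin_comm ψ (redOne e) (redOne_smul e) (galRho E p σ) (rbar.ρ σ)
    (redOne_galRho e (fun σ v => rbar.ρ σ v) he σ) x

end Galois

end Fermat.Agent.GE7.TateAbs
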