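/-
S59 PRE-WORK / E7 core, file 7 (helper64): the residual seam AFTER BASE CHANGE (R1 of GATE-E
GRAPH v0): for any local ring `A` and local `φ : ℤ_[p] →+* A`, the push-forward of the abstract
Tate module is a lift of (the base change of) any `ZMod p`-model `rbar` of `E[p]` — in the exact
spelling of the frozen S54 `hres` / `DeformationRingData.universal`:
`(ρ.baseChangeAlong φ hφ).residual.IsEquiv (rbar.baseChangeAlong ι)`.
-/
import Fermat.Agent.GE7.TateAbs.Residual
import Fermat.Agent.GP.Tan.UnivInj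

set_option autoImplicit false

noncomputable section

namespace Fermat.Agent.GE7.TateAbs

open PadicInt IsLocalRing

local notation "GQ" => (AlgebraicClosure ℚ ≃ₐ[ℚ] AlgebraicClosure ℚ)

open Fermat.Agent.S53_helper35 in
/-- **base change of residual representations is transitive** (matrix dictionary of helper35). -/
theorem resBaseChangeAlong_comp_isEquiv {k k' k'' : Type} [Field k] [Field k'] [Field k'']
    (ρ : ResidualGaloisRep k) (ι : k →+* k') (κ : k' →+* k'') :
    ((ρ.baseChangeAlong ι).baseChangeAlong κ).IsEquiv (ρ.baseChangeAlong (κ.comp ι)) := by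
  set b := stdBasisRes ρ
  obtain ⟨e1⟩ := baseChangeAlong_isEquiv_ofMatRes κ (ρ.baseChangeAlong ι) (bcBasisRes ι ρ b)
  obtain ⟨e2⟩ := baseChangeAlong_isEquiv_ofMatRes (κ.comp ι) ρ b
  have hm : mapMat κ (toMatRes (ρ.baseChangeAlong ι) (bcBasisRes ι ρ b)) =
      mapMat (κ.comp ι) (toMatRes ρ b) := by
    rw [toMatRes_baseChangeAlong]
    refine MonoidHom.ext fun σ => ?_
    rw [mapMat_apply, mapMat_apply, mapMat_apply, Matrix.map_map]
    rfl
  obtain ⟨e3⟩ := isEquiv_ofMatRes_of_eq (resCont_mapMat κ (resCont_toMatRes _ _))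
    (resCont_mapMat (κ.comp ι) (resCont_toMatRes ρ b)) hm
  exact ⟨(e1.trans e3).trans e2.symm⟩

variable {E : Type} [AddCommGroup E] [DistribMulAction GQ E] {p : ℕ} [hp : Fact p.Prime]

/-- the residual seam for ANY `ψ`-free statement: some embedding `ZMod p → ResidueField ℤ_[p]`
exists, and all are equal. -/
theorem residual_tateRep_isEquiv' (hcard : ∀ n, Nat.card (lvl E p n) = p ^ (2 * n))
    (hlev : LevelFinite E p) (rbar : ResidualGaloisRep (ZMod p)) (e : rbar.V ≃+ lvl E p 1)
    (he : ∀ (σ : GQ) (v : rbar.V),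
      ((e (rbar.ρ σ v) : lvl E p 1) : E) = σ • ((e v : lvl E p 1) : E)) :
    (tateRep E p hcard hlev).residual.IsEquiv
      (rbar.baseChangeAlong ((PadicInt.residueField (p := p)).symm : ZMod p →+* ResidueField ℤ_[p])) :=
  residual_tateRep_isEquiv hcard hlev rbar e he _

/-- **the residual seam after base change** (frozen S54 `hres` spelling). -/
theorem residual_baseChangeAlong_tateRep_isEquiv
    (hcard : ∀ n, Nat.card (lvl E p n) = p ^ (2 * n))
    (hlev : LevelFinite E p) (rbar : ResidualGaloisRep (ZMod p)) (e : rbar.V ≃+ lvl E p 1)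
    (he : ∀ (σ : GQ) (v : rbar.V),
      ((e (rbar.ρ σ v) : lvl E p 1) : E) = σ • ((e v : lvl E p 1) : E))
    {A : Type} [CommRing A] [IsLocalRing A] (φ : ℤ_[p] →+* A) (hφ : IsLocalHom φ)
    (ι : ZMod p →+* ResidueField A) :
    ((tateRep E p hcard hlev).baseChangeAlong φ hφ).residual.IsEquiv (rbar.baseChangeAlong ι) := by
  have h := Fermat.Agent.GP.Tan.UnivInj.residual_baseChangeAlong_isEquiv
    (tateRep E p hcard hlev) φ hφ rbar _ (residual_tateRep_isEquiv' hcard hlev rbar e he)
  rwa [RingHom.ext_zmod (RingHom.comp _ _) ι] at h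

/-- the same for an algebra `𝒪` over `ℤ_[p]` (engine spelling `algebraMap ℤ_[p] 𝒪`). -/
theorem residual_baseChangeAlong_algebraMap_tateRep_isEquiv
    (hcard : ∀ n, Nat.card (lvl E p n) = p ^ (2 * n))
    (hlev : LevelFinite E p) (rbar : ResidualGaloisRep (ZMod p)) (e : rbar.V ≃+ lvl E p 1)
    (he : ∀ (σ : GQ) (v : rbar.V),
      ((e (rbar.ρ σ v) : lvl E p 1) : E) = σ • ((e v : lvl E p 1) : E))
    {𝒪 : Type} [CommRing 𝒪] [IsLocalRing 𝒪] [Algebra ℤ_[p] 𝒪] [hloc : IsLocalHom (algebraMap ℤ_[p] 𝒪)]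
    (ι : ZMod p →+* ResidueField 𝒪) :
    ((tateRep E p hcard hlev).baseChangeAlong (algebraMap ℤ_[p] 𝒪) hloc).residual.IsEquiv
      (rbar.baseChangeAlong ι) :=
  residual_baseChangeAlong_tateRep_isEquiv hcard hlev rbar e he _ hloc ι

end Fermat.Agent.GE7.TateAbs
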