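/-
S59 PRE-WORK / E7 core, file 8 (helper64): the residual seam ON THE CURVE (R1 of GATE-E GRAPH v0).

For `W : WeierstrassCurve ℤ`, `E := (EQb W).Point = W(ℚ̄)` and the FROZEN residual representation
`(W.map (Int.castRingHom ℚ)).residualGaloisRepOf p hcard₁ hker` (`= GB/Setup RhoBar.rb p W hcard₁
hker`, an `abbrev`): for ANY `hcard hlev` (so verbatim for helper17's `DictW.Inst.rhoW`), any local
`A`, local `φ : ℤ_[p] →+* A` and `ι : ZMod p →+* ResidueField A`:

  `((tateRep (EQb W).Point p hcard hlev).baseChangeAlong φ hφ).residual.IsEquiv (ρ̄.baseChangeAlong ι)`.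
-/
import Fermat.Agent.GE7.TateAbs.ResidualBC
import Fermat.Agent.GE.Top.ECAssembly

set_option autoImplicit false

noncomputable section

open scoped WeierstrassCurve.Affine
open Fermat.Agent.Common_helper32

namespace Fermat.Agent.GE7.TateAbs

open PadicInt IsLocalRing WeierstrassCurve Fermat.Agent.GE.ECAssembly

variable (W : WeierstrassCurve ℤ) (p : ℕ) [hp : Fact p.Prime]

/-- `W(ℚ̄)[p]` in the Prelude spelling (`torsionBy ℤ _ (p : ℤ)`) is `lvl W(ℚ̄) p 1`. -/
def torsionEquivLvlOne : Submodule.torsionBy ℤ (EQb W).Point ((p : ℕ) : ℤ) ≃+ lvl (EQb W).Point p 1 where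
  toFun x := ⟨x.1, by
    have h := x.2
    rw [Submodule.mem_torsionBy_iff, natCast_zsmul] at h
    rw [mem_lvl, pow_one]
    exact h⟩
  invFun y := ⟨y.1, by
    have h := mem_lvl.mp y.2
    rw [pow_one] at h
    rw [Submodule.mem_torsionBy_iff, natCast_zsmul]
    exact h⟩
  left_inv _ := rfl
  right_inv _ := rfl
  map_add' _ _ := rfl

omit hp in
@[simp] theorem coe_torsionEquivLvlOne (x : Submodule.torsionBy ℤ (EQb W).Point ((p : ℕ) : ℤ)) :
    ((torsionEquivLvlOne W p x : lvl (EQb W).Point p 1) : (EQb W).Point) = x := rfl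

variable {W p}
variable (hcard₁ : Nat.card (Submodule.torsionBy ℤ
    ((W.map (Int.castRingHom ℚ))⁄(AlgebraicClosure ℚ)).Point p) = p ^ 2)
  (hker : GaloisFactorsThroughFiniteLevel
    (WeierstrassCurve.Affine.Point.galoisRepModuleEnd (K := AlgebraicClosure ℚ) ℚ
      (W.map (Int.castRingHom ℚ)) p))
  (hcard : ∀ n, Nat.card (lvl (EQb W).Point p n) = p ^ (2 * n))
  (hlev : LevelFinite (EQb W).Point p)

/-- **residual seam on the curve, over `ℤ_[p]`.** -/
theorem residual_tateRepW_isEquiv (ψ : ZMod p →+* ResidueField ℤ_[p]) :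
    (tateRep (EQb W).Point p hcard hlev).residual.IsEquiv
      (((W.map (Int.castRingHom ℚ)).residualGaloisRepOf p hcard₁ hker).baseChangeAlong ψ) :=
  residual_tateRep_isEquiv hcard hlev
    ((W.map (Int.castRingHom ℚ)).residualGaloisRepOf p hcard₁ hker) (torsionEquivLvlOne W p)
    (fun _ _ => rfl) ψ

/-- **residual seam on the curve, after base change** (frozen S54 `hres` spelling). -/
theorem residual_baseChangeAlong_tateRepW_isEquiv {A : Type} [CommRing A] [IsLocalRing A]
    (φ : ℤ_[p] →+* A) (hφ : IsLocalHom φ) (ι : ZMod p →+* ResidueField A) :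
    ((tateRep (EQb W).Point p hcard hlev).baseChangeAlong φ hφ).residual.IsEquiv
      (((W.map (Int.castRingHom ℚ)).residualGaloisRepOf p hcard₁ hker).baseChangeAlong ι) :=
  residual_baseChangeAlong_tateRep_isEquiv hcard hlev
    ((W.map (Int.castRingHom ℚ)).residualGaloisRepOf p hcard₁ hker) (torsionEquivLvlOne W p)
    (fun _ _ => rfl) φ hφ ι

/-- the same for a coefficient ring `𝒪` over `ℤ_[p]`, with `ρbar` over `ResidueField 𝒪` spelled as
the engine does: `ρ̄_{W,p} ⊗ ResidueField 𝒪` along `ι`, then along `ResidueField.map (algebraMap 𝒪 A)`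
for any local `𝒪`-algebra `A` — literally `hres` of the frozen S54 / `universal`. -/
theorem residual_baseChangeAlong_tateRepW_isEquiv_tower
    {𝒪 : Type} [CommRing 𝒪] [IsLocalRing 𝒪] (ι : ZMod p →+* ResidueField 𝒪)
    {A : Type} [CommRing A] [IsLocalRing A] [Algebra 𝒪 A] [IsLocalHom (algebraMap 𝒪 A)]
    (φ : ℤ_[p] →+* A) (hφ : IsLocalHom φ) :
    ((tateRep (EQb W).Point p hcard hlev).baseChangeAlong φ hφ).residual.IsEquiv
      ((((W.map (Int.castRingHom ℚ)).residualGaloisRepOf p hcard₁ hker).baseChangeAlong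
        ι).baseChangeAlong (ResidueField.map (algebraMap 𝒪 A))) := by
  obtain ⟨e1⟩ := residual_baseChangeAlong_tateRepW_isEquiv hcard₁ hker hcard hlev φ hφ
    ((ResidueField.map (algebraMap 𝒪 A)).comp ι)
  obtain ⟨e2⟩ := resBaseChangeAlong_comp_isEquiv
    ((W.map (Int.castRingHom ℚ)).residualGaloisRepOf p hcard₁ hker) ι
    (ResidueField.map (algebraMap 𝒪 A))
  exact ⟨e1.trans e2.symm⟩

end Fermat.Agent.GE7.TateAbs
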