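/-
S59 PRE-WORK / E7 core, file 4 (helper64): the ORDINARY LINE of the abstract Tate module.
Mathlib only.

Input: a subgroup `C ≤ E` with `CycLevels E p C` (`C[p^n]` cyclic of order `p^n` for every `n` —
e.g. the points of `W(ℚ̄)` in the zero component at a multiplicative prime, or the kernel of
reduction at an ordinary prime), and the counts `#E[p^n] = p^(2n)`.

Output (the shapes of the frozen `GaloisRepAdic.IsOrdinaryAt / IsStrictOrdinaryAt`):
* `lineSub C : Submodule ℤ_[p] (Tp E p)` — `{x | ∀ n, val x n ∈ C}`;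
* `exists_line_basis` : `∃ b : Module.Basis (Fin 2) ℤ_[p] (Tp E p), lineSub C = ℤ_[p] ∙ b 0`, and
  `val (b 0) n` has exact order `p^n`;
* transfers: `tpMap_mem_lineSub` (stability), `tpMap_sub_mem_lineSub` (`ρσ v − v ∈ L`),
  `tpMap_sub_smul_mem_lineSub` (`ρσ v − z • v ∈ L`, `z` an integer), `exists_scalar`
  (`ρσ w = x • w` on `L`), `scalar_sub_mem` (`x − m ∈ (p^n)` when `σ = m` on `C[p^n]`).
-/
import Fermat.Agent.GE7.TateAbs.Free

set_option autoImplicit false

noncomputable section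

namespace Fermat.Agent.GE7.TateAbs

open PadicInt IsLocalRing

variable {E : Type*} [AddCommGroup E] {p : ℕ}

/-- `C[p^n]` is cyclic of order `p^n`, for every `n`. -/
def CycLevels (E : Type*) [AddCommGroup E] (p : ℕ) (C : AddSubgroup E) : Prop :=
  ∀ n : ℕ, ∃ g ∈ C, addOrderOf g = p ^ n ∧ ∀ P ∈ C, p ^ n • P = 0 → ∃ i : ℕ, P = i • g

variable [hp : Fact p.Prime]

/-! ### a prescribed first basis vector at level one -/

theorem exists_basis1_of_module_of_ne_zero {V : Type*} [AddCommGroup V] [Module (ZMod p) V]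
    [Finite V] (hcard : Nat.card V = p ^ 2) {v₁ : V} (hv₁ : v₁ ≠ 0) :
    ∃ v₂ : V, (∀ x : V, ∃ i j : ℕ, x = i • v₁ + j • v₂) ∧
      ∀ i j : ℕ, i • v₁ + j • v₂ = 0 → p ∣ i ∧ p ∣ j := by
  classical
  have hrank : Module.finrank (ZMod p) V = 2 := by
    have h1 := Module.natCard_eq_pow_finrank (K := ZMod p) (V := V)
    rw [hcard, Nat.card_zmod] at h1
    exact (Nat.pow_right_injective hp.out.two_le h1).symm
  obtain ⟨v₂, hli⟩ := exists_linearIndependent_pair_of_one_lt_finrank
    (R := ZMod p) (M := V) (by rw [hrank]; norm_num) hv₁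
  let b := basisOfLinearIndependentOfCardEqFinrank hli (by rw [hrank, Fintype.card_fin])
  have hb : ⇑b = ![v₁, v₂] := coe_basisOfLinearIndependentOfCardEqFinrank hli _
  have hb0 : b 0 = v₁ := by rw [hb]; rfl
  have hb1 : b 1 = v₂ := by rw [hb]; rfl
  have hsmul : ∀ (c : ZMod p) (v : V), c • v = c.val • v := fun c v => by
    conv_lhs => rw [← ZMod.natCast_zmod_val c]
    exact Nat.cast_smul_eq_nsmul _ _ _
  refine ⟨v₂, ?_, ?_⟩
  · intro x
    have h1 := b.sum_repr x
    rw [Fin.sum_univ_two, hsmul, hsmul, hb0, hb1] at h1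
    exact ⟨(b.repr x 0).val, (b.repr x 1).val, h1.symm⟩
  · intro i j hij
    have h1 : (i : ZMod p) • v₁ + (j : ZMod p) • v₂ = 0 := by
      rw [Nat.cast_smul_eq_nsmul, Nat.cast_smul_eq_nsmul]
      exact hij
    obtain ⟨h20, h21⟩ := LinearIndependent.pair_iff.mp hli _ _ h1
    exact ⟨(ZMod.natCast_eq_zero_iff i p).mp h20, (ZMod.natCast_eq_zero_iff j p).mp h21⟩

/-- a level-one basis with prescribed first vector. -/
theorem exists_basis1_of_card_of_ne_zero (hcard : Nat.card (lvl E p 1) = p ^ 2) {e₁ : E}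
    (he₁ : p • e₁ = 0) (hne : e₁ ≠ 0) : ∃ e₂ : E, Basis1 E p e₁ e₂ := by
  have hV : ∀ x : lvl E p 1, p • x = 0 := fun x => by
    have := pow_nsmul_lvl x
    rwa [pow_one] at this
  let _ : Module (ZMod p) (lvl E p 1) := AddCommGroup.zmodModule hV
  have hfinV : Finite (lvl E p 1) := Nat.finite_of_card_ne_zero (by
    rw [hcard]; exact (pow_pos hp.out.pos 2).ne')
  have he₁V : e₁ ∈ lvl E p 1 := by rw [mem_lvl, pow_one]; exact he₁
  have hne' : (⟨e₁, he₁V⟩ : lvl E p 1) ≠ 0 := fun h => hne (congrArg Subtype.val h)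
  obtain ⟨v₂, hspan, hind⟩ :=
    exists_basis1_of_module_of_ne_zero (p := p) (V := lvl E p 1) hcard hne'
  refine ⟨(v₂ : E), he₁, congrArg Subtype.val (hV v₂), ?_, ?_⟩
  · intro x hx
    have hxV : x ∈ lvl E p 1 := by rw [mem_lvl, pow_one]; exact hx
    obtain ⟨i, j, hij⟩ := hspan ⟨x, hxV⟩
    refine ⟨i, j, ?_⟩
    have h2 := congrArg Subtype.val hij
    simp only [AddSubgroup.coe_add, AddSubgroup.coe_nsmul] at h2
    exact h2
  · intro i j hij
    apply hind
    apply Subtype.ext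
    simp only [AddSubgroup.coe_add, AddSubgroup.coe_nsmul]
    exact hij

/-! ### the line -/

variable (C : AddSubgroup E)

/-- the part of `T_p(E)` lying in `C`. -/
def lineSub : Submodule ℤ_[p] (Tp E p) where
  carrier := {x | ∀ n, val x n ∈ C}
  add_mem' := fun hx hy n => by rw [val_add]; exact C.add_mem (hx n) (hy n)
  zero_mem' := fun n => by rw [val_zero']; exact C.zero_mem
  smul_mem' := fun a x hx n => by rw [val_smul]; exact C.nsmul_mem (hx n) _

variable {C}

theorem mem_lineSub {x : Tp E p} : x ∈ lineSub (p := p) C ↔ ∀ n, val x n ∈ C := Iff.rfl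

/-- `L` is saturated: `p • y ∈ L ⟹ y ∈ L`. -/
theorem mem_lineSub_of_p_smul {y : Tp E p} (h : (p : ℤ_[p]) • y ∈ lineSub (p := p) C) :
    y ∈ lineSub (p := p) C := by
  intro n
  have := h (n + 1)
  rwa [val_natCast_smul, val_succ] at this

/-- stability. -/
theorem tpMap_mem_lineSub {f : AddMonoid.End E} (hf : ∀ P ∈ C, f P ∈ C) {x : Tp E p}
    (hx : x ∈ lineSub (p := p) C) : tpMap f x ∈ lineSub (p := p) C :=
  fun n => by rw [val_tpMap]; exact hf _ (hx n)

/-- `f P − P ∈ C` on every level ⟹ `T_p(f) v − v ∈ L`. -/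
theorem tpMap_sub_mem_lineSub {f : AddMonoid.End E}
    (h : ∀ n, ∀ P ∈ lvl E p n, f P - P ∈ C) (v : Tp E p) :
    tpMap f v - v ∈ lineSub (p := p) C :=
  fun n => by rw [val_sub, val_tpMap]; exact h n _ (val_mem v n)

/-- `f P − d • P ∈ C` on every level (`d : ℤ`) ⟹ `T_p(f) v − d • v ∈ L`. -/
theorem tpMap_sub_smul_mem_lineSub {f : AddMonoid.End E} (d : ℤ)
    (h : ∀ n, ∀ P ∈ lvl E p n, f P - d • P ∈ C) (v : Tp E p) :
    tpMap f v - (d : ℤ_[p]) • v ∈ lineSub (p := p) C :=
  fun n => by rw [val_sub, val_tpMap, val_intCast_smul]; exact h n _ (val_mem v n)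

/-! ### `C` is `p`-divisible on its `p`-primary torsion -/

omit hp in
theorem pdiv_of_cycLevels (hp' : p.Prime) (hC : CycLevels E p C) : PDiv C p := by
  rintro ⟨z, hzC⟩ ⟨k, hz⟩
  have hz' : p ^ k • z = 0 := by
    have := congrArg Subtype.val hz
    simpa using this
  obtain ⟨g, hgC, hg, hgen⟩ := hC (k + 1)
  have hz1 : p ^ (k + 1) • z = 0 := by rw [pow_succ, mul_nsmul, hz', nsmul_zero]
  obtain ⟨j, rfl⟩ := hgen z hzC hz1
  -- `p^(k+1) ∣ p^k j`, so `p ∣ j`
  have h1 : p ^ (k + 1) ∣ j * p ^ k := by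
    rw [← hg]
    apply addOrderOf_dvd_of_nsmul_eq_zero
    rw [mul_nsmul]
    exact hz'
  have h2 : p ∣ j := by
    rw [pow_succ, mul_comm j] at h1
    exact (Nat.mul_dvd_mul_iff_left (pow_pos hp'.pos k)).mp h1
  obtain ⟨c, rfl⟩ := h2
  refine ⟨⟨c • g, C.nsmul_mem hgC c⟩, ?_⟩
  apply Subtype.ext
  simp only [AddSubgroup.coe_nsmul]
  rw [mul_nsmul']

/-- the image in `T_p(E)` of an element of `T_p(C)`. -/
def inclTp (x : Tp C p) : Tp E p :=
  mk (fun n => ((val x n : C) : E))
    (fun n => by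
      have := pow_nsmul_val x n
      have h2 := congrArg Subtype.val this
      simpa using h2)
    (fun n => by
      have := val_succ x n
      have h2 := congrArg Subtype.val this
      simpa using h2)

theorem val_inclTp (x : Tp C p) (n : ℕ) : val (inclTp x) n = ((val x n : C) : E) := rfl

theorem inclTp_mem (x : Tp C p) : inclTp x ∈ lineSub (p := p) C :=
  fun n => by rw [val_inclTp]; exact (val x n).2

/-! ### the basis adapted to the line -/

section Basis

variable (hcard : ∀ n, Nat.card (lvl E p n) = p ^ (2 * n)) (hC : CycLevels E p C)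
include hcard hC

/-- **the adapted basis**: `L = ℤ_p ∙ b 0`, and `val (b 0) n` has exact order `p^n`. -/
theorem exists_line_basis :
    ∃ b : Module.Basis (Fin 2) ℤ_[p] (Tp E p),
      lineSub (p := p) C = Submodule.span ℤ_[p] {b 0} ∧
      ∀ n, addOrderOf (val (b 0) n) = p ^ n := by
  have hdiv := pdiv_of_card hp.out hcard
  -- a generator of `C[p]`
  obtain ⟨g, hgC, hg, hgen⟩ := hC 1
  rw [pow_one] at hg
  have hpg : p • g = 0 := by rw [← hg]; exact addOrderOf_nsmul_eq_zero g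
  have hg0 : g ≠ 0 := by
    rintro rfl
    rw [addOrderOf_zero] at hg
    exact hp.out.one_lt.ne hg
  -- a lift of `g` inside `T_p(C)`
  have hdivC := pdiv_of_cycLevels hp.out hC
  have hgC1 : (⟨g, hgC⟩ : C) ∈ lvl C p 1 := by
    rw [mem_lvl, pow_one]
    exact Subtype.ext (by simpa using hpg)
  obtain ⟨xC, hxC⟩ := proj_surjective hdivC 1 ⟨⟨g, hgC⟩, hgC1⟩
  let f₁ : Tp E p := inclTp xC
  have hf₁L : f₁ ∈ lineSub (p := p) C := inclTp_mem xC
  have hf₁ : val f₁ 1 = g := by
    show ((val xC 1 : C) : E) = g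
    rw [← coe_proj, hxC]
  -- complete `g` to a basis of `E[p]`
  obtain ⟨e₂, B⟩ := exists_basis1_of_card_of_ne_zero (E := E) (p := p)
    (by simpa using hcard 1) hpg hg0
  obtain ⟨f₂, hf₂⟩ : ∃ f₂ : Tp E p, val f₂ 1 = e₂ := by
    have he₂ : e₂ ∈ lvl E p 1 := by rw [mem_lvl, pow_one]; exact B.h₂
    obtain ⟨f₂, hf₂⟩ := proj_surjective hdiv 1 ⟨e₂, he₂⟩
    exact ⟨f₂, by rw [← coe_proj, hf₂]⟩
  obtain ⟨b, hb0, hb1⟩ := exists_basis B hf₁ hf₂
  refine ⟨b, ?_, ?_⟩
  · -- `L = ℤ_p f₁`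
    apply le_antisymm
    · intro x hx
      obtain ⟨a, c, rfl⟩ := exists_eq_smul_add_smul B hf₁ hf₂ x
      -- `c • f₂ ∈ L`
      have hc : c • f₂ ∈ lineSub (p := p) C := by
        have := (lineSub (p := p) C).sub_mem hx ((lineSub (p := p) C).smul_mem a hf₁L)
        rwa [add_sub_cancel_left] at this
      -- hence `p^n ∣ c` for all `n`
      have key : ∀ n : ℕ, ∀ c : ℤ_[p], c • f₂ ∈ lineSub (p := p) C → (p : ℤ_[p]) ^ n ∣ c := by
        intro n
        induction n with
        | zero => intro c _; simp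
        | succ n ih =>
          intro c hc
          have h1 : val (c • f₂) 1 ∈ C := hc 1
          rw [val_smul, hf₂] at h1
          have h2 : p ^ 1 • (c.appr 1 • e₂) = 0 := by
            rw [pow_one, smul_comm, B.h₂, nsmul_zero]
          obtain ⟨i, hi⟩ := hgen _ h1 h2
          -- `(i (p − 1)) • g + c.appr 1 • e₂ = 0`
          have h3 : (i * (p - 1)) • g + c.appr 1 • e₂ = 0 := by
            rw [hi, ← add_nsmul]
            have : i * (p - 1) + i = i * p := by
              have := hp.out.one_le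
              calc i * (p - 1) + i = i * (p - 1 + 1) := by ring
                _ = i * p := by rw [Nat.sub_add_cancel this]
            rw [this, mul_nsmul', hpg, nsmul_zero]
          obtain ⟨-, hdvd⟩ := B.indep _ _ h3
          have hc0 : c.appr 1 = 0 :=
            Nat.eq_zero_of_dvd_of_lt hdvd (by simpa using appr_lt c 1)
          obtain ⟨c', rfl⟩ := (appr_one_eq_zero_iff c).mp hc0
          have hc' : c' • f₂ ∈ lineSub (p := p) C := by
            apply mem_lineSub_of_p_smul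
            rwa [smul_smul]
          rw [pow_succ']
          exact mul_dvd_mul_left _ (ih c' hc')
      have hc0 : c = 0 := eq_zero_of_forall_pow_dvd fun n => key n c hc
      rw [hc0, zero_smul, add_zero, hb0]
      exact Submodule.smul_mem _ _ (Submodule.mem_span_singleton_self _)
    · rw [Submodule.span_singleton_le_iff_mem, hb0]
      exact hf₁L
  · -- exact orders
    intro n
    rw [hb0]
    have h1 : p ^ n • val f₁ n = 0 := pow_nsmul_val f₁ n
    rcases Nat.eq_zero_or_pos n with rfl | hn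
    · have : val f₁ 0 = 0 := by simpa using h1
      rw [this, addOrderOf_zero, pow_zero]
    · -- `p^(n-1) • val f₁ n = val f₁ 1 = g ≠ 0`
      have h2 : p ^ (n - 1) • val f₁ n ≠ 0 := by
        have h3 := pow_nsmul_val_add f₁ 1 (n - 1)
        have h4 : 1 + (n - 1) = n := by omega
        rw [h4, hf₁] at h3
        rw [h3]
        exact hg0
      have h5 := addOrderOf_eq_prime_pow (p := p) (n := n - 1) h2 (by
        have h4 : n - 1 + 1 = n := by omega
        rw [h4]; exact h1)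
      have h4 : n - 1 + 1 = n := by omega
      rw [h5, h4]

end Basis

/-! ### the scalars of the strict-ordinary clause -/

/-- on a rank-one line `L = ℤ_p ∙ b₀` stable under `T_p(f)`, `T_p(f)` is a scalar. -/
theorem exists_scalar {b₀ : Tp E p} (hL : lineSub (p := p) C = Submodule.span ℤ_[p] {b₀})
    {f : AddMonoid.End E} (hf : ∀ P ∈ C, f P ∈ C) :
    ∃ x : ℤ_[p], ∀ w ∈ lineSub (p := p) C, tpMap f w = x • w := by
  have hb₀ : b₀ ∈ lineSub (p := p) C := by
    rw [hL]; exact Submodule.mem_span_singleton_self _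
  have h1 : tpMap f b₀ ∈ Submodule.span ℤ_[p] {b₀} := by
    rw [← hL]; exact tpMap_mem_lineSub hf hb₀
  obtain ⟨x, hx⟩ := Submodule.mem_span_singleton.mp h1
  refine ⟨x, fun w hw => ?_⟩
  rw [hL] at hw
  obtain ⟨c, rfl⟩ := Submodule.mem_span_singleton.mp hw
  rw [map_smul, ← hx, smul_comm]

/-- the scalar is congruent to `m` mod `p^n` as soon as `f = m` on `C[p^n]`. -/
theorem scalar_sub_mem {b₀ : Tp E p} (hb₀ : b₀ ∈ lineSub (p := p) C) {n : ℕ}
    (hord : addOrderOf (val b₀ n) = p ^ n) {f : AddMonoid.End E} {x : ℤ_[p]}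
    (hx : tpMap f b₀ = x • b₀) (m : ℤ) (hm : ∀ P ∈ C, p ^ n • P = 0 → f P = m • P) :
    x - (m : ℤ_[p]) ∈ Ideal.span {((p ^ n : ℕ) : ℤ_[p])} := by
  have h1 : val (tpMap f b₀) n = val (x • b₀) n := by rw [hx]
  rw [val_tpMap, val_smul, hm _ (hb₀ n) (pow_nsmul_val b₀ n)] at h1
  -- `(x.appr n − m) • val b₀ n = 0`
  have h2 : ((x.appr n : ℤ) - m) • val b₀ n = 0 := by
    rw [sub_smul, natCast_zsmul, ← h1, sub_self]
  have h3 : ((p ^ n : ℕ) : ℤ) ∣ (x.appr n : ℤ) - m := by
    rw [← hord]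
    exact addOrderOf_dvd_iff_zsmul_eq_zero.mpr h2
  obtain ⟨c, hc⟩ := h3
  have h4 : x - (m : ℤ_[p]) = (x - (x.appr n : ℤ_[p])) + (((x.appr n : ℤ) - m : ℤ) : ℤ_[p]) := by
    push_cast; ring
  rw [h4]
  apply Ideal.add_mem
  · have := appr_spec n x
    rwa [← Nat.cast_pow] at this
  · rw [hc, Ideal.mem_span_singleton]
    push_cast
    exact Dvd.intro _ rfl

end Fermat.Agent.GE7.TateAbs
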